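import Fermat.Agent.HeckeProd.Forms

/-!
# The `q`-expansion of the multiplicative Hecke operator
-/

set_option autoImplicit false

open UpperHalfPlane ModularForm Complex Filter Topology Matrix.SpecialLinearGroup CongruenceSubgroup
open scoped MatrixGroups Manifold
open Fermat.Agent.MFLib Fermat.Agent.HeckeHom Fermat.Agent.Kum ModularCurve
open Fermat.Agent.ModPoly (twist twist_coeff)

namespace Fermat.Agent.HeckeProd

noncomputable section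

variable {k : ℤ} {f u : ℍ → ℂ}

local notation "qq" => Function.Periodic.qParam (1 : ℝ)

lemma hasSum_qe (hf : QG f) (τ : ℍ) : HasSum (fun m : ℕ => (qe f).coeff m * qq τ ^ m) (f τ) := by
  have := hasSum_qExpansion one_pos hf.per hf.holo hf.bdd τ
  simpa using this

lemma qe_coeff_unique (hf : QG f) {c : ℕ → ℂ} (h : ∀ τ : ℍ, HasSum (fun m : ℕ => c m * qq τ ^ m) (f τ))
    (m : ℕ) : (qe f).coeff m = c m := by
  letI : FunLike (ℍ → ℂ) ℍ ℂ := ⟨id, fun _ _ h => h⟩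
  exact (UpperHalfPlane.qExpansion_coeff_unique f one_pos hf.analyticAt h m).symm

lemma ql_coeff_natCast (f : ℍ → ℂ) (n : ℕ) : (ql f).coeff (n : ℤ) = (qe f).coeff n := by
  rw [ql, HahnSeries.ofPowerSeries_apply_coeff]

lemma ql_coeff_neg (f : ℍ → ℂ) {n : ℤ} (hn : n < 0) : (ql f).coeff n = 0 := by
  rw [ql, ofPowerSeries_coeff_of_neg _ hn]

lemma laurent_ext_ql {f : ℍ → ℂ} {G : LaurentSeries ℂ} (h0 : ∀ n : ℤ, n < 0 → G.coeff n = 0)
    (h : ∀ n : ℕ, (qe f).coeff n = G.coeff n) : ql f = G := by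
  ext n
  rcases lt_or_ge n 0 with hn | hn
  · rw [ql_coeff_neg f hn, h0 n hn]
  · obtain ⟨n, rfl⟩ := Int.eq_ofNat_of_zero_le hn
    rw [ql_coeff_natCast, h n]

/-- periodicity in terms of points -/
lemma per_iff {f : ℍ → ℂ} : Function.Periodic (f ∘ ofComplex) (1 : ℝ) ↔
    ∀ τ : ℍ, f ((1 : ℝ) +ᵥ τ) = f τ := by
  constructor
  · intro h τ
    have h1 := h (τ : ℂ)
    simp only [Function.comp_apply, ofComplex_apply] at h1
    rw [← h1]
    congr 1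
    have : ((τ : ℂ) + ((1 : ℝ) : ℂ)) = (((1 : ℝ) +ᵥ τ : ℍ) : ℂ) := by
      rw [UpperHalfPlane.coe_vadd]; ring
    rw [this, ofComplex_apply]
  · intro h w
    by_cases hw : 0 < w.im
    · simp only [Function.comp_apply]
      have h1 : w + ((1 : ℝ) : ℂ) = (((1 : ℝ) +ᵥ (⟨w, hw⟩ : ℍ) : ℍ) : ℂ) := by
        rw [UpperHalfPlane.coe_vadd]; simp [add_comm]
      rw [h1, ofComplex_apply, h, ofComplex_apply_of_im_pos hw]
    · simp only [Function.comp_apply]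
      rw [ofComplex_apply_of_im_nonpos (not_lt.mp hw), ofComplex_apply_of_im_nonpos]
      simpa using hw

lemma per_int (hf : QG f) (m : ℤ) (τ : ℍ) : f ((m : ℝ) +ᵥ τ) = f τ := by
  have h := hf.per.int_mul m
  have h1 := h (τ : ℂ)
  simp only [Function.comp_apply, ofComplex_apply] at h1
  rw [← h1]
  congr 1
  have : ((τ : ℂ) + (m : ℂ) * ((1 : ℝ) : ℂ)) = (((m : ℝ) +ᵥ τ : ℍ) : ℂ) := by
    rw [UpperHalfPlane.coe_vadd]; push_cast; ring
  rw [this, ofComplex_apply]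

variable (ℓ : ℕ) [NeZero ℓ]

/-- `f(ℓ τ)` -/
def dil (f : ℍ → ℂ) : ℍ → ℂ := fun τ => f (heckeDiagMatrix ℓ • τ)

/-- `∏ f((τ + j)/ℓ)` -/
def nrm (f : ℍ → ℂ) : ℍ → ℂ := fun τ => ∏ x : ZMod ℓ, f (heckeMatrix ℓ x.val • τ)

variable {ℓ}

lemma dil_eq_slash (f : ℍ → ℂ) : dil ℓ f = f ∣[(1 : ℤ)] heckeDiagMatrix ℓ := by
  funext τ
  rw [slash_heckeDiagMatrix_apply 1 (NeZero.ne ℓ), sub_self, zpow_zero, one_mul]
  rfl

lemma comp_heckeMatrix (f : ℍ → ℂ) (j : ℕ) : (fun τ => f (heckeMatrix ℓ j • τ)) =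
    (ℓ : ℂ) • (f ∣[(1 : ℤ)] heckeMatrix ℓ j) := by
  have hℓ : (ℓ : ℂ) ≠ 0 := by exact_mod_cast NeZero.ne ℓ
  funext τ
  rw [Pi.smul_apply, slash_heckeMatrix_apply 1 (NeZero.ne ℓ), smul_eq_mul, mul_inv_cancel_left₀ hℓ]

lemma mdiff_dil (hf : MDiff f) : MDiff (dil ℓ f) := by
  rw [dil_eq_slash]; exact hf.slash 1 _

lemma mdiff_comp_heckeMatrix (hf : MDiff f) (j : ℕ) : MDiff (fun τ => f (heckeMatrix ℓ j • τ)) := by
  rw [comp_heckeMatrix]
  exact (hf.slash 1 _).const_smul _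

lemma im_dil (τ : ℍ) : (heckeDiagMatrix ℓ • τ).im = ℓ * τ.im := by
  have := coe_heckeDiagMatrix_smul (NeZero.ne ℓ) τ
  rw [← UpperHalfPlane.coe_im, this]
  simp

lemma im_heckeMatrix (j : ℕ) (τ : ℍ) : (heckeMatrix ℓ j • τ).im = τ.im / ℓ := by
  have := coe_heckeMatrix_smul (NeZero.ne ℓ) j τ
  rw [← UpperHalfPlane.coe_im, this]
  rw [Complex.div_natCast_im]
  simp

lemma bdd_dil (hf : IsBoundedAtImInfty f) : IsBoundedAtImInfty (dil ℓ f) := by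
  rw [isBoundedAtImInfty_iff] at hf ⊢
  obtain ⟨M, A, h⟩ := hf
  have hℓ : (1 : ℝ) ≤ ℓ := by exact_mod_cast Nat.one_le_iff_ne_zero.mpr (NeZero.ne ℓ)
  refine ⟨M, A, fun τ hτ => h _ ?_⟩
  rw [im_dil]
  nlinarith [τ.im_pos]

lemma bdd_comp_heckeMatrix (hf : IsBoundedAtImInfty f) (j : ℕ) :
    IsBoundedAtImInfty (fun τ => f (heckeMatrix ℓ j • τ)) := by
  rw [isBoundedAtImInfty_iff] at hf ⊢
  obtain ⟨M, A, h⟩ := hf
  have hℓ : (0 : ℝ) < ℓ := by exact_mod_cast Nat.pos_of_ne_zero (NeZero.ne ℓ)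
  refine ⟨M, ℓ * A, fun τ hτ => h _ ?_⟩
  rw [im_heckeMatrix, le_div_iff₀ hℓ]
  linarith

lemma qg_dil (hf : QG f) : QG (dil ℓ f) where
  per := by
    rw [per_iff]
    intro τ
    have h1 : heckeDiagMatrix ℓ • ((1 : ℝ) +ᵥ τ) = (((ℓ : ℤ) : ℝ) +ᵥ (heckeDiagMatrix ℓ • τ) : ℍ) := by
      ext
      rw [coe_heckeDiagMatrix_smul (NeZero.ne ℓ), UpperHalfPlane.coe_vadd, UpperHalfPlane.coe_vadd,
        coe_heckeDiagMatrix_smul (NeZero.ne ℓ)]
      push_cast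
      ring
    change f (heckeDiagMatrix ℓ • ((1 : ℝ) +ᵥ τ)) = f (heckeDiagMatrix ℓ • τ)
    rw [h1, per_int hf]
  holo := mdiff_dil hf.holo
  bdd := bdd_dil hf.bdd

lemma qq_dil (τ : ℍ) : qq (heckeDiagMatrix ℓ • τ : ℍ) = qq τ ^ ℓ := by
  rw [coe_heckeDiagMatrix_smul (NeZero.ne ℓ)]
  simp only [Function.Periodic.qParam]
  rw [← Complex.exp_nat_mul]
  congr 1
  push_cast
  ring

/-- the `q`-expansion of `f(ℓτ)` -/
lemma ql_dil (hf : QG f) : ql (dil ℓ f) = qExpand ℂ ℓ (ql f) := by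
  have hpos : 0 < ℓ := Nat.pos_of_ne_zero (NeZero.ne ℓ)
  have hcoeff : ∀ n : ℕ, (qe (dil ℓ f)).coeff n = if ℓ ∣ n then (qe f).coeff (n / ℓ) else 0 := by
    refine qe_coeff_unique (qg_dil hf) fun τ => ?_
    have h1 := hasSum_qe hf (heckeDiagMatrix ℓ • τ)
    have hinj : Function.Injective (fun m : ℕ => ℓ * m) := mul_right_injective₀ hpos.ne'
    rw [← hinj.hasSum_iff]
    · refine h1.congr_fun ?_ |> id
      intro m
      simp only [Function.comp_apply]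
      rw [if_pos (dvd_mul_right _ _), Nat.mul_div_cancel_left _ hpos, qq_dil, ← pow_mul]
    · intro n hn
      rw [if_neg, zero_mul]
      rintro ⟨m, rfl⟩
      exact hn ⟨m, rfl⟩
  refine laurent_ext_ql ?_ ?_
  · intro n hn
    by_cases hd : (ℓ : ℤ) ∣ n
    · obtain ⟨m, rfl⟩ := hd
      rw [qExpand_coeff_mul, ql_coeff_neg]
      have hpos' : (0 : ℤ) < ℓ := by exact_mod_cast hpos
      by_contra hm
      exact absurd hn (not_lt.mpr (mul_nonneg hpos'.le (not_lt.mp hm)))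
    · rw [qExpand_coeff_of_not_dvd ℓ _ hd]
  · intro n
    rw [hcoeff]
    split_ifs with h
    · obtain ⟨m, rfl⟩ := h
      rw [Nat.mul_div_cancel_left _ hpos, Nat.cast_mul, qExpand_coeff_mul, ql_coeff_natCast]
    · rw [qExpand_coeff_of_not_dvd]
      exact fun h' => h (by exact_mod_cast h')

/-- translates -/
def shf (ℓ : ℕ) (j : ℕ) (f : ℍ → ℂ) : ℍ → ℂ := dil ℓ (fun τ => f (heckeMatrix ℓ j • τ))

lemma shf_pt (j : ℕ) (τ : ℍ) :
    heckeMatrix ℓ j • heckeDiagMatrix ℓ • τ = ((j / ℓ : ℝ) +ᵥ τ : ℍ) := by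
  have hℓ : (ℓ : ℂ) ≠ 0 := by exact_mod_cast NeZero.ne ℓ
  ext
  rw [coe_heckeMatrix_smul (NeZero.ne ℓ), coe_heckeDiagMatrix_smul (NeZero.ne ℓ),
    UpperHalfPlane.coe_vadd]
  push_cast
  field_simp
  ring

lemma shf_apply (j : ℕ) (f : ℍ → ℂ) (τ : ℍ) : shf ℓ j f τ = f ((j / ℓ : ℝ) +ᵥ τ : ℍ) := by
  rw [← shf_pt]; rfl

lemma qg_shf (hf : QG f) (j : ℕ) : QG (shf ℓ j f) where
  per := by
    rw [per_iff]
    intro τ
    rw [shf_apply, shf_apply, vadd_vadd, add_comm, ← vadd_vadd]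
    exact per_iff.mp hf.per _
  holo := mdiff_dil (mdiff_comp_heckeMatrix hf.holo j)
  bdd := bdd_dil (bdd_comp_heckeMatrix hf.bdd j)

variable (ℓ) in
/-- the standard root of unity -/
def zt : ℂˣ := Units.mk0 (Complex.exp (2 * Real.pi * Complex.I / ℓ)) (Complex.exp_ne_zero _)

lemma zt_primitive : IsPrimitiveRoot (zt ℓ) ℓ :=
  IsPrimitiveRoot.coe_units_iff.mp (Complex.isPrimitiveRoot_exp ℓ (NeZero.ne ℓ))

lemma qq_shf (j : ℕ) (τ : ℍ) : qq ((j / ℓ : ℝ) +ᵥ τ : ℍ) = ((zt ℓ ^ j : ℂˣ) : ℂ) * qq τ := by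
  have hℓ : (ℓ : ℂ) ≠ 0 := by exact_mod_cast NeZero.ne ℓ
  rw [UpperHalfPlane.coe_vadd, Units.val_pow_eq_pow_val, zt, Units.val_mk0]
  simp only [Function.Periodic.qParam]
  rw [← Complex.exp_nat_mul, ← Complex.exp_add]
  congr 1
  push_cast
  field_simp

lemma ql_shf (hf : QG f) (j : ℕ) : ql (shf ℓ j f) = twist (zt ℓ ^ j) (ql f) := by
  have hcoeff : ∀ n : ℕ, (qe (shf ℓ j f)).coeff n = (((zt ℓ ^ j) ^ n : ℂˣ) : ℂ) * (qe f).coeff n := by
    refine qe_coeff_unique (qg_shf hf j) fun τ => ?_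
    have h1 := hasSum_qe hf ((j / ℓ : ℝ) +ᵥ τ : ℍ)
    rw [shf_apply]
    refine h1.congr_fun ?_ |> id
    intro m
    rw [qq_shf, mul_pow, ← Units.val_pow_eq_pow_val]
    ring
  refine laurent_ext_ql ?_ ?_
  · intro n hn
    rw [twist_coeff, ql_coeff_neg f hn, mul_zero]
  · intro n
    rw [hcoeff, twist_coeff, ql_coeff_natCast, zpow_natCast]

lemma dil_nrm (f : ℍ → ℂ) : dil ℓ (nrm ℓ f) = ∏ x : ZMod ℓ, shf ℓ x.val f := by
  funext τ
  rw [Finset.prod_apply]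
  rfl

lemma mdiff_prod {ι : Type*} (s : Finset ι) (F : ι → ℍ → ℂ) (h : ∀ i ∈ s, MDiff (F i)) :
    MDiff (∏ i ∈ s, F i) := by
  classical
  induction s using Finset.induction_on with
  | empty => rw [Finset.prod_empty]; exact fun _ => mdifferentiableAt_const
  | insert i s hi ih =>
    rw [Finset.prod_insert hi]
    exact (h i (Finset.mem_insert_self _ _)).mul (ih fun j hj => h j (Finset.mem_insert_of_mem hj))

lemma bdd_prod {ι : Type*} (s : Finset ι) (F : ι → ℍ → ℂ) (h : ∀ i ∈ s, IsBoundedAtImInfty (F i)) :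
    IsBoundedAtImInfty (∏ i ∈ s, F i) := by
  classical
  induction s using Finset.induction_on with
  | empty => rw [Finset.prod_empty]; exact atImInfty.const_boundedAtFilter (1 : ℂ)
  | insert i s hi ih =>
    rw [Finset.prod_insert hi]
    exact (h i (Finset.mem_insert_self _ _)).mul (ih fun j hj => h j (Finset.mem_insert_of_mem hj))

lemma nrm_eq (f : ℍ → ℂ) : nrm ℓ f = ∏ x : ZMod ℓ, fun τ => f (heckeMatrix ℓ x.val • τ) := by
  funext τ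
  rw [Finset.prod_apply]
  rfl

lemma value_congr (hf : QG f) {i j : ℕ} (h : (i : ZMod ℓ) = j) (τ : ℍ) :
    f (heckeMatrix ℓ i • τ) = f (heckeMatrix ℓ j • τ) := by
  have hℓ : (ℓ : ℂ) ≠ 0 := by exact_mod_cast NeZero.ne ℓ
  have h1 : (ℓ : ℤ) ∣ (i : ℤ) - j := by
    rw [← ZMod.intCast_zmod_eq_zero_iff_dvd]
    push_cast
    rw [h, sub_self]
  obtain ⟨m, hm⟩ := h1
  have h2 : heckeMatrix ℓ i • τ = ((m : ℝ) +ᵥ (heckeMatrix ℓ j • τ) : ℍ) := by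
    ext
    rw [coe_heckeMatrix_smul (NeZero.ne ℓ), UpperHalfPlane.coe_vadd,
      coe_heckeMatrix_smul (NeZero.ne ℓ)]
    have h3 : (i : ℂ) - j = ℓ * m := by exact_mod_cast hm
    field_simp
    push_cast
    linear_combination h3
  rw [h2, per_int hf]

lemma qg_nrm (hf : QG f) : QG (nrm ℓ f) where
  per := by
    rw [per_iff]
    intro τ
    change ∏ x : ZMod ℓ, f (heckeMatrix ℓ x.val • ((1 : ℝ) +ᵥ τ : ℍ)) =
      ∏ x : ZMod ℓ, f (heckeMatrix ℓ x.val • τ)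
    rw [← Equiv.prod_comp (Equiv.addRight (1 : ZMod ℓ)) (fun x => f (heckeMatrix ℓ x.val • τ))]
    refine Finset.prod_congr rfl fun x _ => ?_
    have h1 : heckeMatrix ℓ x.val • ((1 : ℝ) +ᵥ τ : ℍ) = heckeMatrix ℓ (x.val + 1) • τ := by
      ext
      rw [coe_heckeMatrix_smul (NeZero.ne ℓ), UpperHalfPlane.coe_vadd,
        coe_heckeMatrix_smul (NeZero.ne ℓ)]
      push_cast
      ring
    rw [h1]
    apply value_congr hf
    rw [Equiv.coe_addRight, ZMod.natCast_zmod_val, Nat.cast_add, ZMod.natCast_zmod_val, Nat.cast_one]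
  holo := by
    rw [nrm_eq]
    exact mdiff_prod _ _ fun x _ => mdiff_comp_heckeMatrix hf.holo _
  bdd := by
    rw [nrm_eq]
    exact bdd_prod _ _ fun x _ => bdd_comp_heckeMatrix hf.bdd _

lemma ql_prod {ι : Type*} (s : Finset ι) (F : ι → ℍ → ℂ) (h : ∀ i ∈ s, QG (F i)) :
    QG (∏ i ∈ s, F i) ∧ ql (∏ i ∈ s, F i) = ∏ i ∈ s, ql (F i) := by
  classical
  induction s using Finset.induction_on with
  | empty => rw [Finset.prod_empty, Finset.prod_empty]; exact ⟨QG.one, ql_one⟩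
  | insert i s hi ih =>
    obtain ⟨h1, h2⟩ := ih fun j hj => h j (Finset.mem_insert_of_mem hj)
    have h3 := h i (Finset.mem_insert_self _ _)
    rw [Finset.prod_insert hi, Finset.prod_insert hi]
    exact ⟨h3.mul h1, by rw [ql_mul h3 h1, h2]⟩

/-- the `q`-expansion of the norm -/
lemma ql_nrm (hf : QG f) : ql (nrm ℓ f) = NN ℓ (zt ℓ) (ql f) := by
  apply qExpand_injective ℓ
  rw [← ql_dil (qg_nrm hf), dil_nrm, (ql_prod _ _ fun x _ => qg_shf hf x.val).2,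
    qExpand_NN zt_primitive, PP]
  exact Finset.prod_congr rfl fun x _ => ql_shf hf _

/-- the normalisation constant -/
def cst (k : ℤ) (ℓ : ℕ) : ℂ := (ℓ : ℂ) ^ (k - 1) * ((ℓ : ℂ)⁻¹) ^ ℓ

lemma cst_ne_zero : cst k ℓ ≠ 0 := by
  have hℓ : (ℓ : ℂ) ≠ 0 := by exact_mod_cast NeZero.ne ℓ
  exact mul_ne_zero (zpow_ne_zero _ hℓ) (pow_ne_zero _ (inv_ne_zero hℓ))

lemma TTf_eq (f : ℍ → ℂ) : TTf k ℓ f = cst k ℓ • (dil ℓ f * nrm ℓ f) := by
  funext τ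
  rw [TTf, Fintype.prod_option, Pi.mul_apply, Pi.smul_apply, Finset.prod_apply, Pi.mul_apply,
    smul_eq_mul, repT_none, slash_heckeDiagMatrix_apply k (NeZero.ne ℓ)]
  have h1 : ∀ x : ZMod ℓ, (f ∣[k] repT ℓ (some x)) τ = (ℓ : ℂ)⁻¹ * f (heckeMatrix ℓ x.val • τ) := by
    intro x
    rw [repT_some, repU, slash_heckeMatrix_apply k (NeZero.ne ℓ)]
  rw [Finset.prod_congr rfl (fun x _ => h1 x), Finset.prod_mul_distrib, Finset.prod_const,
    Finset.card_univ, ZMod.card, cst]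
  change _ = _ * (f (heckeDiagMatrix ℓ • τ) * ∏ x : ZMod ℓ, f (heckeMatrix ℓ x.val • τ))
  ring

theorem qg_TTf (hf : QG f) : QG (TTf k ℓ f) := by
  rw [TTf_eq]
  exact ((qg_dil hf).mul (qg_nrm hf)).smul _

/-- **the `q`-expansion of the multiplicative Hecke operator** -/
theorem ql_TTf (hf : QG f) {ζ : ℂˣ} (hζ : IsPrimitiveRoot ζ ℓ) :
    ql (TTf k ℓ f) = HahnSeries.C (cst k ℓ) * TT hζ (ql f) := by
  rw [TTf_eq, ql_smul _ ((qg_dil hf).mul (qg_nrm hf)), ql_mul (qg_dil hf) (qg_nrm hf), ql_dil hf,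
    ql_nrm hf, TT_indep hζ zt_primitive, TT_apply]

theorem RepF_TT {N : ℕ} [NeZero N] (hℓ : ℓ.Prime) (hℓN : ¬ ℓ ∣ N) {ζ : ℂˣ}
    (hζ : IsPrimitiveRoot ζ ℓ) {x : LaurentSeries ℂ} {f g : ℍ → ℂ} (h : RepF N x k f g) :
    RepF N (TT hζ x) (((ℓ + 1 : ℕ) : ℤ) * k) (TTf k ℓ f) (TTf k ℓ g) where
  mf := isMF_TTf ℓ hℓ hℓN h.mf
  mg := isMF_TTf ℓ hℓ hℓN h.mg
  g0 := TTf_ne_zero ℓ h.mg.holo h.g0
  eq := by
    rw [ql_TTf h.mg.qgN hζ, ql_TTf h.mf.qgN hζ, ← h.eq, map_mul]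
    ring

theorem TT_mem_MFun {N : ℕ} [NeZero N] (hℓ : ℓ.Prime) (hℓN : ¬ ℓ ∣ N) {ζ : ℂˣ}
    (hζ : IsPrimitiveRoot ζ ℓ) {x : LaurentSeries ℂ} (h : x ∈ MFun N) : TT hζ x ∈ MFun N := by
  obtain ⟨k, f, g, h⟩ := h
  exact ⟨_, _, _, RepF_TT hℓ hℓN hζ h⟩

end

end Fermat.Agent.HeckeProd
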