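import Fermat.Agent.ModPoly.QEval
import Fermat.Prelude.Def_ModularCurve_LaurentCoeff
import Fermat.Prelude.Thm_ModularCurve_coeffMap_qExpand

/-!
# The formal multiplicative Hecke operator on Laurent series
-/

set_option autoImplicit false

open ModularCurve Fermat.Agent.ModPoly

namespace Fermat.Agent.HeckeProd

noncomputable section

section contract

variable {R S : Type*} [CommRing R] [CommRing S] (m : ℕ) [NeZero m]

/-- extraction of the coefficients with index divisible by `m` -/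
def contract (F : LaurentSeries R) : LaurentSeries R :=
  ⟨fun n => F.coeff (m * n), by
    intro f
    obtain ⟨i, j, hij, h⟩ := F.isPWO_support' (fun n => ⟨(m : ℤ) * (f n).1, (f n).2⟩)
    refine ⟨i, j, hij, ?_⟩
    have hm : (0 : ℤ) < m := by exact_mod_cast Nat.pos_of_ne_zero (NeZero.ne m)
    exact le_of_mul_le_mul_left h hm⟩

@[simp] lemma contract_coeff (F : LaurentSeries R) (n : ℤ) :
    (contract m F).coeff n = F.coeff (m * n) := rfl

lemma contract_qExpand (F : LaurentSeries R) : contract m (qExpand R m F) = F := by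
  ext n
  rw [contract_coeff, qExpand_coeff_mul]

lemma qExpand_contract {F : LaurentSeries R} (h : ∀ n : ℤ, ¬ (m : ℤ) ∣ n → F.coeff n = 0) :
    qExpand R m (contract m F) = F := by
  ext n
  by_cases hn : (m : ℤ) ∣ n
  · obtain ⟨k, rfl⟩ := hn
    rw [qExpand_coeff_mul, contract_coeff]
  · rw [qExpand_coeff_of_not_dvd m _ hn, h n hn]

lemma coeffMap_contract (f : R →+* S) (F : LaurentSeries R) :
    coeffMap f (contract m F) = contract m (coeffMap f F) := rfl

end contract

section twist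

variable {R S : Type*} [CommRing R] [CommRing S]

lemma twist_twist (c d : Rˣ) (F : LaurentSeries R) : twist c (twist d F) = twist (c * d) F := by
  ext n
  simp only [twist_coeff, mul_zpow, Units.val_mul]
  ring

lemma twist_one (F : LaurentSeries R) : twist (1 : Rˣ) F = F := by
  ext n
  simp

lemma coeffMap_twist (f : R →+* S) (c : Rˣ) (F : LaurentSeries R) :
    coeffMap f (twist c F) = twist (Units.map (f : R →* S) c) (coeffMap f F) := by
  ext n
  rw [coeffMap_coeff, twist_coeff, twist_coeff, coeffMap_coeff, map_mul, ← map_zpow]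
  rfl

end twist

section prod

variable {R S : Type*} [CommRing R] [CommRing S] (m : ℕ) [NeZero m]

/-- the product of the twists by powers of `ζ` -/
def PP (ζ : Rˣ) (F : LaurentSeries R) : LaurentSeries R := ∏ x : ZMod m, twist (ζ ^ x.val) F

lemma pow_val_eq {M : Type*} [Monoid M] {ζ : M} (h : ζ ^ m = 1) (n : ℕ) :
    ζ ^ ((n : ZMod m).val) = ζ ^ n := by
  rw [ZMod.val_natCast, ← pow_eq_pow_mod n h]

lemma PP_mul (ζ : Rˣ) (F G : LaurentSeries R) : PP m ζ (F * G) = PP m ζ F * PP m ζ G := by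
  simp only [PP, map_mul, Finset.prod_mul_distrib]

lemma PP_one (ζ : Rˣ) : PP m ζ (1 : LaurentSeries R) = 1 := by
  simp only [PP, map_one, Finset.prod_const_one]

lemma PP_zero (ζ : Rˣ) : PP m ζ (0 : LaurentSeries R) = 0 := by
  simp only [PP, map_zero, Finset.prod_const, Finset.card_univ, ZMod.card]
  exact zero_pow (NeZero.ne m)

lemma coeffMap_PP (f : R →+* S) (ζ : Rˣ) (F : LaurentSeries R) :
    coeffMap f (PP m ζ F) = PP m (Units.map (f : R →* S) ζ) (coeffMap f F) := by
  simp only [PP, map_prod, coeffMap_twist, map_pow]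

variable {m}

lemma twist_PP {ζ : Rˣ} (h : ζ ^ m = 1) (F : LaurentSeries R) :
    twist ζ (PP m ζ F) = PP m ζ F := by
  rw [PP, map_prod, ← Equiv.prod_comp (Equiv.addRight (1 : ZMod m)) (fun x => twist (ζ ^ x.val) F)]
  refine Finset.prod_congr rfl fun x _ => ?_
  rw [twist_twist, Equiv.coe_addRight]
  congr 2
  change ζ * ζ ^ x.val = ζ ^ (x + 1).val
  have h1 : x + 1 = ((x.val + 1 : ℕ) : ZMod m) := by
    rw [Nat.cast_add, ZMod.natCast_zmod_val, Nat.cast_one]
  rw [h1, pow_val_eq m h, pow_succ']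

lemma PP_coeff [IsDomain R] {ζ : Rˣ} (h : IsPrimitiveRoot ζ m) (F : LaurentSeries R) {n : ℤ}
    (hn : ¬ (m : ℤ) ∣ n) : (PP m ζ F).coeff n = 0 := by
  have h1 := congrArg (fun G : LaurentSeries R => G.coeff n) (twist_PP h.pow_eq_one F)
  simp only [twist_coeff] at h1
  have h2 : (((ζ ^ n : Rˣ) : R) - 1) * (PP m ζ F).coeff n = 0 := by rw [sub_mul, h1]; ring
  rcases mul_eq_zero.mp h2 with h3 | h3
  · exfalso
    apply hn
    rw [← h.zpow_eq_one_iff_dvd]
    apply Units.ext
    rw [Units.val_one]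
    exact sub_eq_zero.mp h3
  · exact h3

lemma PP_indep [IsDomain R] {ζ ζ' : Rˣ} (h : IsPrimitiveRoot ζ m) (h' : IsPrimitiveRoot ζ' m)
    (F : LaurentSeries R) : PP m ζ F = PP m ζ' F := by
  have h1 : IsPrimitiveRoot (ζ : R) m := IsPrimitiveRoot.coe_units_iff.mpr h
  have h1' : IsPrimitiveRoot (ζ' : R) m := IsPrimitiveRoot.coe_units_iff.mpr h'
  obtain ⟨i, -, hi, hi'⟩ := h1.isPrimitiveRoot_iff.mp h1'
  have hz : ζ' = ζ ^ i := Units.ext (by rw [Units.val_pow_eq_pow_val, hi'])
  rw [PP, PP, ← Equiv.prod_comp (Units.mulLeft (ZMod.unitOfCoprime i hi))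
    (fun x => twist (ζ ^ x.val) F)]
  refine Finset.prod_congr rfl fun x _ => ?_
  congr 1
  have h2 : Units.mulLeft (ZMod.unitOfCoprime i hi) x = ((i * x.val : ℕ) : ZMod m) := by
    rw [Units.mulLeft_apply, ZMod.coe_unitOfCoprime, Nat.cast_mul, ZMod.natCast_zmod_val]
  rw [h2, pow_val_eq m h.pow_eq_one, hz, ← pow_mul]

variable (m)

/-- the norm operator -/
def NN (ζ : Rˣ) (F : LaurentSeries R) : LaurentSeries R := contract m (PP m ζ F)

lemma coeffMap_NN (f : R →+* S) (ζ : Rˣ) (F : LaurentSeries R) :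
    coeffMap f (NN m ζ F) = NN m (Units.map (f : R →* S) ζ) (coeffMap f F) := by
  rw [NN, coeffMap_contract, coeffMap_PP]; rfl

variable {m}

lemma qExpand_NN [IsDomain R] {ζ : Rˣ} (h : IsPrimitiveRoot ζ m) (F : LaurentSeries R) :
    qExpand R m (NN m ζ F) = PP m ζ F :=
  qExpand_contract m fun _ hn => PP_coeff h F hn

lemma NN_mul [IsDomain R] {ζ : Rˣ} (h : IsPrimitiveRoot ζ m) (F G : LaurentSeries R) :
    NN m ζ (F * G) = NN m ζ F * NN m ζ G := by
  apply qExpand_injective m
  rw [map_mul, qExpand_NN h, qExpand_NN h, qExpand_NN h, PP_mul]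

variable (m) in
lemma contract_one : contract m (1 : LaurentSeries R) = 1 := by
  apply qExpand_injective m
  rw [qExpand_contract, map_one]
  intro n hn
  rw [HahnSeries.coeff_one, if_neg]
  rintro rfl
  exact hn (dvd_zero _)

variable (m) in
lemma contract_zero : contract m (0 : LaurentSeries R) = 0 := rfl

lemma NN_one (ζ : Rˣ) : NN m ζ (1 : LaurentSeries R) = 1 := by
  rw [NN, PP_one, contract_one]

lemma NN_zero (ζ : Rˣ) : NN m ζ (0 : LaurentSeries R) = 0 := by
  rw [NN, PP_zero, contract_zero]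

lemma NN_indep [IsDomain R] {ζ ζ' : Rˣ} (h : IsPrimitiveRoot ζ m) (h' : IsPrimitiveRoot ζ' m)
    (F : LaurentSeries R) : NN m ζ F = NN m ζ' F := by
  rw [NN, NN, PP_indep h h']

variable (m)

/-- the formal multiplicative Hecke operator (as a function, for any `ζ`) -/
def TF (ζ : Rˣ) (F : LaurentSeries R) : LaurentSeries R := qExpand R m F * NN m ζ F

lemma coeffMap_TF (f : R →+* S) (ζ : Rˣ) (F : LaurentSeries R) :
    coeffMap f (TF m ζ F) = TF m (Units.map (f : R →* S) ζ) (coeffMap f F) := by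
  rw [TF, map_mul, coeffMap_NN, ModularCurve.coeffMap_qExpand]; rfl

variable {m}

lemma TF_mul [IsDomain R] {ζ : Rˣ} (h : IsPrimitiveRoot ζ m) (F G : LaurentSeries R) :
    TF m ζ (F * G) = TF m ζ F * TF m ζ G := by
  rw [TF, NN_mul h, map_mul, TF, TF]; ring

lemma TF_one (ζ : Rˣ) : TF m ζ (1 : LaurentSeries R) = 1 := by
  rw [TF, map_one, NN_one, one_mul]

lemma TF_zero (ζ : Rˣ) : TF m ζ (0 : LaurentSeries R) = 0 := by
  rw [TF, map_zero, zero_mul]

lemma TF_indep [IsDomain R] {ζ ζ' : Rˣ} (h : IsPrimitiveRoot ζ m) (h' : IsPrimitiveRoot ζ' m)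
    (F : LaurentSeries R) : TF m ζ F = TF m ζ' F := by
  rw [TF, TF, NN_indep h h']

/-- the characterisation of `TF` -/
lemma qExpand_TF [IsDomain R] {ζ : Rˣ} (h : IsPrimitiveRoot ζ m) (F : LaurentSeries R) :
    qExpand R m (TF m ζ F) = qExpand R (m * m) F * ∏ x : ZMod m, twist (ζ ^ x.val) F := by
  rw [TF, map_mul, qExpand_NN h, qExpand_qExpand, PP]

/-- the formal multiplicative Hecke operator, as a homomorphism of monoids with zero -/
def TT [IsDomain R] {ζ : Rˣ} (h : IsPrimitiveRoot ζ m) : LaurentSeries R →*₀ LaurentSeries R where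
  toFun := TF m ζ
  map_mul' := TF_mul h
  map_one' := TF_one ζ
  map_zero' := TF_zero ζ

lemma TT_apply [IsDomain R] {ζ : Rˣ} (h : IsPrimitiveRoot ζ m) (F : LaurentSeries R) :
    TT h F = qExpand R m F * NN m ζ F := rfl

lemma TT_def [IsDomain R] {ζ : Rˣ} (h : IsPrimitiveRoot ζ m) (F : LaurentSeries R) :
    TT h F = TF m ζ F := rfl

lemma TT_indep [IsDomain R] {ζ ζ' : Rˣ} (h : IsPrimitiveRoot ζ m) (h' : IsPrimitiveRoot ζ' m) :
    TT h = TT h' := MonoidWithZeroHom.ext fun F => TF_indep h h' F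

/-- `TT` commutes with all ring homomorphisms between domains -/
theorem coeffMap_TT [IsDomain R] [IsDomain S] (f : R →+* S) {ζ : Rˣ} (h : IsPrimitiveRoot ζ m)
    {ζ' : Sˣ} (h' : IsPrimitiveRoot ζ' m)
    (hf : IsPrimitiveRoot (Units.map (f : R →* S) ζ) m) (F : LaurentSeries R) :
    coeffMap f (TT h F) = TT h' (coeffMap f F) := by
  rw [TT_def, coeffMap_TF, TF_indep hf h', TT_def]

/-- `TT` commutes with injective ring homomorphisms between domains -/
theorem coeffMap_TT_of_injective [IsDomain R] [IsDomain S] (f : R →+* S)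
    (hf : Function.Injective f) {ζ : Rˣ} (h : IsPrimitiveRoot ζ m)
    {ζ' : Sˣ} (h' : IsPrimitiveRoot ζ' m) (F : LaurentSeries R) :
    coeffMap f (TT h F) = TT h' (coeffMap f F) :=
  coeffMap_TT f h h' (h.map_of_injective (f := Units.map (f : R →* S))
    (Units.map_injective hf)) F

end prod

section frob

variable {k : Type*} [CommRing k] (ℓ : ℕ) [hℓ : Fact ℓ.Prime] [CharP k ℓ]

/-- Frobenius on the coefficients -/
def Fr : LaurentSeries k →+* LaurentSeries k := coeffMap (frobenius k ℓ)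

lemma pow_ofPowerSeries (f : PowerSeries k) :
    HahnSeries.ofPowerSeries ℤ k f ^ ℓ = qExpand k ℓ (Fr ℓ (HahnSeries.ofPowerSeries ℤ k f)) := by
  have h1 : (PowerSeries.expand ℓ hℓ.out.ne_zero f).map (frobenius k ℓ) = f ^ ℓ :=
    MvPowerSeries.map_frobenius_expand ℓ hℓ.out.ne_zero
  rw [← map_pow, ← h1]
  ext n
  by_cases hn : (ℓ : ℤ) ∣ n
  · obtain ⟨j, rfl⟩ := hn
    rw [qExpand_coeff_mul, Fr, coeffMap_coeff]
    rcases lt_or_ge j 0 with hj | hj
    · have hpos : (0 : ℤ) < ℓ := by exact_mod_cast hℓ.out.pos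
      rw [ofPowerSeries_coeff_of_neg _ (mul_neg_of_pos_of_neg hpos hj),
        ofPowerSeries_coeff_of_neg _ hj, map_zero]
    · obtain ⟨j, rfl⟩ := Int.eq_ofNat_of_zero_le hj
      rw [← Nat.cast_mul, HahnSeries.ofPowerSeries_apply_coeff, HahnSeries.ofPowerSeries_apply_coeff,
        PowerSeries.coeff_map, PowerSeries.coeff_expand_mul]
  · rw [qExpand_coeff_of_not_dvd ℓ _ hn]
    rcases lt_or_ge n 0 with hj | hj
    · rw [ofPowerSeries_coeff_of_neg _ hj]
    · obtain ⟨j, rfl⟩ := Int.eq_ofNat_of_zero_le hj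
      rw [HahnSeries.ofPowerSeries_apply_coeff, PowerSeries.coeff_map,
        PowerSeries.coeff_expand_of_not_dvd, map_zero]
      exact fun h => hn (by exact_mod_cast h)

/-- in characteristic `ℓ`, `F(q)^ℓ = F^σ(q^ℓ)` -/
theorem pow_eq_qExpand (F : LaurentSeries k) : F ^ ℓ = qExpand k ℓ (Fr ℓ F) := by
  have h := LaurentSeries.single_order_mul_powerSeriesPart F
  rw [← h, mul_pow, map_mul, map_mul, HahnSeries.single_pow, pow_ofPowerSeries]
  congr 1
  rw [Fr, coeffMap_single, map_one, qExpand_single, one_pow, nsmul_eq_mul]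

/-- the norm operator in characteristic `ℓ` -/
theorem NN_char (F : LaurentSeries k) : NN ℓ (1 : kˣ) F = Fr ℓ F := by
  have h1 : PP ℓ (1 : kˣ) F = F ^ ℓ := by
    simp only [PP, one_pow, twist_one, Finset.prod_const, Finset.card_univ, ZMod.card]
  rw [NN, h1, pow_eq_qExpand, contract_qExpand]

end frob

end

end Fermat.Agent.HeckeProd
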