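import Fermat.Agent.HeckeProd.Formal
import Fermat.Agent.ModPoly.Gauss
import Fermat.Prelude.Def_EllipticCurve_FrobeniusTrace
import Fermat.Prelude.Def_FLTPrelim_Ramification

/-!
# The Eichler–Shimura congruence for the formal multiplicative Hecke operator
-/

set_option autoImplicit false

open ModularCurve Fermat.Agent.ModPoly

namespace Fermat.Agent.HeckeProd

noncomputable section

section RedTo

variable {K k : Type*} [Field K] [Field k] (V : VCtx K k)

/-- `x` is in the valuation ring of the Gauss valuation, with reduction `y` -/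
def RedTo (x : LaurentSeries K) (y : LaurentSeries k) : Prop :=
  ∃ u v : LaurentSeries V.A, V.red v ≠ 0 ∧ V.inc v * x = V.inc u ∧ V.red v * y = V.red u

variable {V} {x x' : LaurentSeries K} {y y' : LaurentSeries k}

lemma RedTo.mem_W (h : RedTo V x y) : x ∈ V.W := by
  obtain ⟨u, v, hv, h1, -⟩ := h
  exact ⟨u, v, hv, h1⟩

lemma exists_redTo (hx : x ∈ V.W) : ∃ y, RedTo V x y := by
  obtain ⟨u, v, hv, h1⟩ := hx
  exact ⟨V.red u / V.red v, u, v, hv, h1, mul_div_cancel₀ _ hv⟩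

lemma redTo_inc (u : LaurentSeries V.A) : RedTo V (V.inc u) (V.red u) :=
  ⟨u, 1, by rw [map_one]; exact one_ne_zero, by rw [map_one, one_mul], by rw [map_one, one_mul]⟩

lemma RedTo.unique (h : RedTo V x y) (h' : RedTo V x y') : y = y' := by
  obtain ⟨u, v, hv, h1, h2⟩ := h
  obtain ⟨u', v', hv', h1', h2'⟩ := h'
  have h3 : v * u' = v' * u := by
    apply V.inc_injective
    rw [map_mul, map_mul, ← h1, ← h1']; ring
  have h4 := congrArg V.red h3
  rw [map_mul, map_mul, ← h2, ← h2'] at h4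
  have h5 : (V.red v * V.red v') * y' = (V.red v * V.red v') * y := by
    rw [mul_assoc, h4]; ring
  exact (mul_left_cancel₀ (mul_ne_zero hv hv') h5).symm

lemma RedTo.mul (h : RedTo V x y) (h' : RedTo V x' y') : RedTo V (x * x') (y * y') := by
  obtain ⟨u, v, hv, h1, h2⟩ := h
  obtain ⟨u', v', hv', h1', h2'⟩ := h'
  refine ⟨u * u', v * v', by rw [map_mul]; exact mul_ne_zero hv hv', ?_, ?_⟩
  · rw [map_mul, map_mul, ← h1, ← h1']; ring
  · rw [map_mul, map_mul, ← h2, ← h2']; ring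

lemma RedTo.add (h : RedTo V x y) (h' : RedTo V x' y') : RedTo V (x + x') (y + y') := by
  obtain ⟨u, v, hv, h1, h2⟩ := h
  obtain ⟨u', v', hv', h1', h2'⟩ := h'
  refine ⟨u * v' + v * u', v * v', by rw [map_mul]; exact mul_ne_zero hv hv', ?_, ?_⟩
  · rw [map_mul, map_add, map_mul, map_mul, ← h1, ← h1']; ring
  · rw [map_mul, map_add, map_mul, map_mul, ← h2, ← h2']; ring

lemma redTo_one : RedTo V 1 1 := by
  have := redTo_inc (V := V) 1
  rwa [map_one, map_one] at this

lemma redTo_zero : RedTo V 0 0 := by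
  have := redTo_inc (V := V) 0
  rwa [map_zero, map_zero] at this

lemma RedTo.neg (h : RedTo V x y) : RedTo V (-x) (-y) := by
  obtain ⟨u, v, hv, h1, h2⟩ := h
  exact ⟨-u, v, hv, by rw [mul_neg, map_neg, h1], by rw [mul_neg, map_neg, h2]⟩

lemma RedTo.sub (h : RedTo V x y) (h' : RedTo V x' y') : RedTo V (x - x') (y - y') := by
  rw [sub_eq_add_neg, sub_eq_add_neg]
  exact h.add h'.neg

lemma RedTo.pow (h : RedTo V x y) (n : ℕ) : RedTo V (x ^ n) (y ^ n) := by
  induction n with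
  | zero => rw [pow_zero, pow_zero]; exact redTo_one
  | succ n ih => rw [pow_succ, pow_succ]; exact ih.mul h

lemma RedTo.ne_zero (h : RedTo V x y) (hy : y ≠ 0) : x ≠ 0 := by
  rintro rfl
  exact hy (h.unique redTo_zero)

lemma RedTo.inv (h : RedTo V x y) (hy : y ≠ 0) : RedTo V x⁻¹ y⁻¹ := by
  have hx := h.ne_zero hy
  obtain ⟨u, v, hv, h1, h2⟩ := h
  refine ⟨v, u, ?_, ?_, ?_⟩
  · rw [← h2]; exact mul_ne_zero hv hy
  · rw [← h1, mul_assoc, mul_inv_cancel₀ hx, mul_one]
  · rw [← h2, mul_assoc, mul_inv_cancel₀ hy, mul_one]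

lemma RedTo.div (h : RedTo V x y) (h' : RedTo V x' y') (hy : y' ≠ 0) :
    RedTo V (x / x') (y / y') := by
  rw [div_eq_mul_inv, div_eq_mul_inv]
  exact h.mul (h'.inv hy)

lemma RedTo.div_self (h : RedTo V x y) (h' : RedTo V x' y) (hy : y ≠ 0) :
    RedTo V (x / x') 1 := by
  have := h.div h' hy
  rwa [_root_.div_self hy] at this

variable (V) in
/-- the reduction map on the valuation ring of the Gauss valuation -/
def redW : V.W →+* LaurentSeries k where
  toFun x := (exists_redTo x.2).choose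
  map_one' := ((exists_redTo (V := V) (1 : V.W).2).choose_spec).unique redTo_one
  map_zero' := ((exists_redTo (V := V) (0 : V.W).2).choose_spec).unique redTo_zero
  map_mul' x y := ((exists_redTo (V := V) (x * y).2).choose_spec).unique
    ((exists_redTo x.2).choose_spec.mul (exists_redTo y.2).choose_spec)
  map_add' x y := ((exists_redTo (V := V) (x + y).2).choose_spec).unique
    ((exists_redTo x.2).choose_spec.add (exists_redTo y.2).choose_spec)

lemma redTo_redW (x : V.W) : RedTo V x (redW V x) := (exists_redTo x.2).choose_spec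

lemma redW_eq_iff {x : V.W} : redW V x = y ↔ RedTo V x y :=
  ⟨fun h => h ▸ redTo_redW x, fun h => (redTo_redW x).unique h⟩

variable (V) in
/-- `σ` acts on the valuation ring and induces `τ` on the residue field -/
structure Act (σ : K →+* K) (τ : k →+* k) : Prop where
  mem : ∀ a : V.A, σ a ∈ V.A
  red : ∀ a : V.A, V.π ⟨σ a, mem a⟩ = τ (V.π a)

/-- the induced endomorphism -/
def Act.hom {σ : K →+* K} {τ : k →+* k} (h : Act V σ τ) : V.A →+* V.A :=
  (σ.comp V.A.subtype).codRestrict V.A h.mem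

lemma Act.coe_hom {σ : K →+* K} {τ : k →+* k} (h : Act V σ τ) (a : V.A) :
    ((h.hom a : V.A) : K) = σ a := rfl

lemma Act.inc_hom {σ : K →+* K} {τ : k →+* k} (h : Act V σ τ) (u : LaurentSeries V.A) :
    V.inc (coeffMap h.hom u) = coeffMap σ (V.inc u) := rfl

lemma Act.red_hom {σ : K →+* K} {τ : k →+* k} (h : Act V σ τ) (u : LaurentSeries V.A) :
    V.red (coeffMap h.hom u) = coeffMap τ (V.red u) := by
  ext n
  exact h.red _

lemma RedTo.act {σ : K →+* K} {τ : k →+* k} (hσ : Act V σ τ) (h : RedTo V x y) :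
    RedTo V (coeffMap σ x) (coeffMap τ y) := by
  obtain ⟨u, v, hv, h1, h2⟩ := h
  refine ⟨coeffMap hσ.hom u, coeffMap hσ.hom v, ?_, ?_, ?_⟩
  · rw [hσ.red_hom]
    intro h0
    apply hv
    ext n
    have := congrArg (fun F : LaurentSeries k => F.coeff n) h0
    simp only [coeffMap_coeff, HahnSeries.coeff_zero, map_eq_zero] at this
    exact this
  · rw [hσ.inc_hom, hσ.inc_hom, ← map_mul, h1]
  · rw [hσ.red_hom, hσ.red_hom, ← map_mul, h2]

end RedTo

section congruence

variable {K k : Type*} [Field K] [Field k] {V : VCtx K k}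
variable {ℓ : ℕ} [hℓ : Fact ℓ.Prime] [CharP k ℓ]

lemma zeta_mem {m : ℕ} (hm : m ≠ 0) {ζ : K} (h : ζ ^ m = 1) : ζ ∈ V.A := by
  rcases V.mem_or ζ with h1 | h1
  · exact h1
  · have h0 : ζ ≠ 0 := by
      rintro rfl
      rw [zero_pow hm] at h
      exact zero_ne_one h
    obtain ⟨n, rfl⟩ := Nat.exists_eq_succ_of_ne_zero hm
    have h2 : ζ = (ζ⁻¹) ^ n := by
      rw [inv_pow, eq_comm, inv_eq_iff_eq_inv, ← mul_eq_one_iff_eq_inv₀ h0, ← pow_succ]
      exact h
    rw [h2]
    exact pow_mem h1 n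

/-- the root of unity in the valuation ring -/
def zetaA {m : ℕ} (hm : m ≠ 0) {ζ : Kˣ} (h : ζ ^ m = 1) : V.Aˣ where
  val := ⟨ζ, zeta_mem (V := V) hm (by
    rw [← Units.val_pow_eq_pow_val, h, Units.val_one])⟩
  inv := ⟨((ζ⁻¹ : Kˣ) : K), zeta_mem (V := V) hm (by
    rw [← Units.val_pow_eq_pow_val, inv_pow, h, inv_one, Units.val_one])⟩
  val_inv := Subtype.ext (Units.mul_inv ζ)
  inv_val := Subtype.ext (Units.inv_mul ζ)

lemma map_subtype_zetaA {m : ℕ} (hm : m ≠ 0) {ζ : Kˣ} (h : ζ ^ m = 1) :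
    Units.map (V.A.subtype : V.A →* K) (zetaA (V := V) hm h) = ζ := Units.ext rfl

lemma zetaA_pow {m : ℕ} (hm : m ≠ 0) {ζ : Kˣ} (h : ζ ^ m = 1) : (zetaA (V := V) hm h) ^ m = 1 := by
  apply Units.ext
  apply Subtype.ext
  exact congrArg Units.val h

lemma map_pi_zetaA {ζ : Kˣ} (h : ζ ^ ℓ = 1) :
    Units.map (V.π : V.A →* k) (zetaA (V := V) hℓ.out.ne_zero h) = 1 := by
  set z := Units.map (V.π : V.A →* k) (zetaA (V := V) hℓ.out.ne_zero h) with hz
  have h1 : z ^ ℓ = 1 := by rw [hz, ← map_pow, zetaA_pow, map_one]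
  have h2 : frobenius k ℓ (z : k) = frobenius k ℓ 1 := by
    rw [frobenius_def, frobenius_def, one_pow, ← Units.val_pow_eq_pow_val, h1, Units.val_one]
  exact Units.ext (frobenius_inj k ℓ h2)

lemma TF_one_char (y : LaurentSeries k) : TF ℓ (1 : kˣ) y = qExpand k ℓ y * Fr ℓ y := by
  rw [TF, NN_char]

/-- `TT` preserves integrality, and is `y(q) ↦ y(q^ℓ) y^φ(q)` modulo `ℓ` -/
theorem RedTo.TT {ζ : Kˣ} (hζ : IsPrimitiveRoot ζ ℓ) {x : LaurentSeries K} {y : LaurentSeries k}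
    (h : RedTo V x y) : RedTo V (TT hζ x) (qExpand k ℓ y * Fr ℓ y) := by
  obtain ⟨u, v, hv, h1, h2⟩ := h
  have hz := hζ.pow_eq_one
  have e1 : ∀ u : LaurentSeries V.A, V.inc (TF ℓ (zetaA (V := V) hℓ.out.ne_zero hz) u) =
      HeckeProd.TT hζ (V.inc u) := fun u => by
    rw [VCtx.inc, coeffMap_TF, map_subtype_zetaA, TT_def]
  have e2 : ∀ u : LaurentSeries V.A, V.red (TF ℓ (zetaA (V := V) hℓ.out.ne_zero hz) u) =
      qExpand k ℓ (V.red u) * Fr ℓ (V.red u) := fun u => by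
    rw [VCtx.red, coeffMap_TF, map_pi_zetaA, TF_one_char]
  refine ⟨TF ℓ (zetaA (V := V) hℓ.out.ne_zero hz) u, TF ℓ (zetaA (V := V) hℓ.out.ne_zero hz) v,
    ?_, ?_, ?_⟩
  · rw [e2]
    refine mul_ne_zero ?_ ?_
    · intro h0
      rw [← map_zero (qExpand k ℓ)] at h0
      exact hv (qExpand_injective ℓ h0)
    · intro h0
      apply hv
      ext n
      have := congrArg (fun F : LaurentSeries k => F.coeff n) h0
      simp only [Fr, coeffMap_coeff, HahnSeries.coeff_zero, map_eq_zero] at this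
      exact this
  · rw [e1, e1, ← map_mul, h1]
  · rw [e2, e2, ← h2, map_mul, map_mul]; ring

/-- **Eichler–Shimura congruence**: `T_ℓ (σ x) ≡ x ^ ℓ · σ² x` -/
theorem RedTo.TT_frob {ζ : Kˣ} (hζ : IsPrimitiveRoot ζ ℓ) {x : LaurentSeries K}
    {y : LaurentSeries k} (h : RedTo V x y) {σ : K →+* K} (hσ : Act V σ (frobenius k ℓ)) :
    RedTo V (HeckeProd.TT hζ (coeffMap σ x)) (y ^ ℓ * Fr ℓ (Fr ℓ y)) := by
  have := (h.act hσ).TT hζ
  rw [pow_eq_qExpand]
  exact this

theorem RedTo.eichlerShimura {ζ : Kˣ} (hζ : IsPrimitiveRoot ζ ℓ) {x : LaurentSeries K}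
    {y : LaurentSeries k} (h : RedTo V x y) (hy : y ≠ 0) {σ : K →+* K}
    (hσ : Act V σ (frobenius k ℓ)) :
    RedTo V (HeckeProd.TT hζ (coeffMap σ x) / (x ^ ℓ * coeffMap σ (coeffMap σ x))) 1 := by
  refine (h.TT_frob hζ hσ).div_self ((h.pow ℓ).mul ((h.act hσ).act hσ)) ?_
  refine mul_ne_zero (pow_ne_zero _ hy) ?_
  have hF : ∀ z : LaurentSeries k, z ≠ 0 → Fr ℓ z ≠ 0 := by
    intro z hz h0
    apply hz
    ext n
    have := congrArg (fun F : LaurentSeries k => F.coeff n) h0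
    simp only [Fr, coeffMap_coeff, HahnSeries.coeff_zero, map_eq_zero] at this
    exact this
  exact hF _ (hF _ hy)

omit [CharP k ℓ] in
theorem RedTo.inertia {x : LaurentSeries K} {y : LaurentSeries k} (h : RedTo V x y) (hy : y ≠ 0)
    {σ : K →+* K} (hσ : Act V σ (RingHom.id k)) : RedTo V (coeffMap σ x / x) 1 := by
  have h1 := h.act hσ
  rw [coeffMap_id] at h1
  exact h1.div_self h hy

end congruence

section valuation

variable {K : Type*} [Field K] (A : ValuationSubring K)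

/-- the context attached to a valuation ring -/
def valCtx : VCtx K (IsLocalRing.ResidueField A) where
  A := A.toSubring
  mem_or := A.mem_or_inv_mem
  π := IsLocalRing.residue A
  inv_mem a ha := by
    have h1 : IsUnit (⟨a.1, a.2⟩ : A) := by
      rw [← IsLocalRing.residue_ne_zero_iff_isUnit]; exact ha
    obtain ⟨u, hu⟩ := h1
    have h2 : ((u : A) : K) * (((u⁻¹ : Aˣ) : A) : K) = 1 := by
      exact_mod_cast congrArg Subtype.val (Units.mul_inv u)
    have h0 : ((u : A) : K) = a := congrArg Subtype.val hu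
    rw [h0] at h2
    rw [inv_eq_of_mul_eq_one_right h2]
    exact ((u⁻¹ : Aˣ) : A).2

variable {A}

lemma charP_residue {ℓ : ℕ} [hℓ : Fact ℓ.Prime] (h : A.LiesOverPrime ℓ) :
    CharP (IsLocalRing.ResidueField A) ℓ := by
  have h1 : ((ℓ : ℕ) : A) ∈ IsLocalRing.maximalIdeal A := by
    have h2 : (((ℓ : ℕ) : A) : K) ∈ A.nonunits := h
    exact ValuationSubring.coe_mem_nonunits_iff.mp h2
  have h2 : ((ℓ : ℕ) : IsLocalRing.ResidueField A) = 0 := by
    rw [← map_natCast (IsLocalRing.residue A), IsLocalRing.residue_eq_zero_iff]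
    exact h1
  exact (CharP.charP_iff_prime_eq_zero hℓ.out).mpr h2

variable {K₀ : Type*} [Field K₀] [Algebra K₀ K]

lemma act_of_isFrobeniusAt {ℓ : ℕ} [hℓ : Fact ℓ.Prime] [CharP (IsLocalRing.ResidueField A) ℓ]
    {σ : K ≃ₐ[K₀] K} (h : A.IsFrobeniusAt σ ℓ) :
    Act (valCtx A) (σ : K →+* K) (frobenius (IsLocalRing.ResidueField A) ℓ) where
  mem a := ((⟨σ, h.mem_decompositionSubgroup⟩ : A.decompositionSubgroup K₀) • (⟨a.1, a.2⟩ : A)).2
  red a := by
    have h1 := h.smul_residue_eq (IsLocalRing.residue A ⟨a.1, a.2⟩)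
    rw [frobenius_def]
    refine Eq.trans ?_ h1
    rfl

lemma act_of_mem_inertia {σ : K ≃ₐ[K₀] K} (h : σ ∈ A.inertiaSubgroupIn K₀) :
    Act (valCtx A) (σ : K →+* K) (RingHom.id (IsLocalRing.ResidueField A)) := by
  obtain ⟨τ, hτ, rfl⟩ := h
  refine ⟨fun a => (τ • (⟨a.1, a.2⟩ : A)).2, fun a => ?_⟩
  have h1 : τ • (IsLocalRing.residue A ⟨a.1, a.2⟩) = IsLocalRing.residue A ⟨a.1, a.2⟩ := by
    have := MonoidHom.mem_ker.mp hτ
    exact RingEquiv.congr_fun this (IsLocalRing.residue A ⟨a.1, a.2⟩)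
  refine Eq.trans ?_ h1
  rfl

end valuation

end

end Fermat.Agent.HeckeProd
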