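import Fermat.Agent.HeckeProd.Formal
import Fermat.Agent.HeckeHom.Action
import Fermat.Agent.Kum.MFun
import Fermat.Agent.AL.Mat

/-!
# The multiplicative Hecke operator on forms with character
-/

set_option autoImplicit false

open UpperHalfPlane ModularForm Complex Filter Topology Matrix.SpecialLinearGroup CongruenceSubgroup
open scoped MatrixGroups Manifold
open Fermat.Agent.MFLib Fermat.Agent.HeckeHom Fermat.Agent.Kum ModularCurve

namespace Fermat.Agent.HeckeProd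

noncomputable section

variable {k : ℤ} {f u : ℍ → ℂ}

section HB

lemma HB_isBoundedAt (h : HB k f) {c : OnePoint ℝ} (hc : IsCusp c 𝒮ℒ) : c.IsBoundedAt f k := by
  rw [OnePoint.isBoundedAt_iff_forall_SL2Z hc]
  exact fun γ _ => h.bdd γ

lemma HB_sl (h : HB k f) (M : AL.M2) : HB k (AL.sl k M f) where
  holo := by
    rw [AL.sl_def]
    exact h.holo.slash k (AL.toGL M)
  bdd γ := by
    rw [AL.sl_def]
    have hc : IsCusp (mapGL ℝ γ • (OnePoint.infty : OnePoint ℝ)) 𝒮ℒ :=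
      isCusp_SL2Z_iff'.mpr ⟨γ, rfl⟩
    have h1 : (mapGL ℝ γ • (OnePoint.infty : OnePoint ℝ)).IsBoundedAt (f ∣[k] AL.toGL M) k := by
      rw [← OnePoint.IsBoundedAt.smul_iff]
      exact HB_isBoundedAt h (AL.isCusp_toGL_smul hc M)
    exact (OnePoint.isBoundedAt_iff rfl).mp h1

variable {ℓ : ℕ} [NeZero ℓ]

lemma exists_repT_eq (x : Option (ZMod ℓ)) : ∃ M : AL.M2, repT ℓ x = AL.toGL M := by
  rcases x with _ | x
  · exact ⟨_, AL.heckeDiagMatrix_eq_toGL (NeZero.ne ℓ)⟩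
  · exact ⟨_, AL.heckeMatrix_eq_toGL (NeZero.ne ℓ) x.val⟩

lemma HB_repT (h : HB k u) (x : Option (ZMod ℓ)) : HB k (u ∣[k] repT ℓ x) := by
  obtain ⟨M, hM⟩ := exists_repT_eq x
  rw [hM]
  exact HB_sl h M

end HB

variable (k) (ℓ : ℕ) [NeZero ℓ]

/-- the multiplicative Hecke operator -/
def TTf (u : ℍ → ℂ) : ℍ → ℂ := ∏ x : Option (ZMod ℓ), u ∣[k] repT ℓ x

variable {k}

lemma HB_TTf (h : HB k u) : HB (((ℓ + 1 : ℕ) : ℤ) * k) (TTf k ℓ u) := by
  have := HB.prod (s := (Finset.univ : Finset (Option (ZMod ℓ)))) (k := k)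
    (F := fun x => u ∣[k] repT ℓ x) (fun x _ => HB_repT h x)
  rwa [Finset.card_univ, Fintype.card_option, ZMod.card] at this

omit [NeZero ℓ] in
lemma slash_ne_zero {h : ℍ → ℂ} (hh : h ≠ 0) (g : GL (Fin 2) ℝ) : h ∣[k] g ≠ 0 := by
  intro h0
  apply hh
  have h1 : (h ∣[k] g) ∣[k] g⁻¹ = h := by
    rw [← SlashAction.slash_mul, mul_inv_cancel, SlashAction.slash_one]
  rw [← h1, h0, SlashAction.zero_slash]

omit [NeZero ℓ] in
lemma prod_ne_zero_of_holo {ι : Type*} (s : Finset ι) (F : ι → ℍ → ℂ) (h : ∀ i ∈ s, MDiff (F i))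
    (h0 : ∀ i ∈ s, F i ≠ 0) : MDiff (∏ i ∈ s, F i) ∧ ∏ i ∈ s, F i ≠ 0 := by
  classical
  induction s using Finset.induction_on with
  | empty =>
    rw [Finset.prod_empty]
    exact ⟨fun _ => mdifferentiableAt_const, one_ne_zero⟩
  | insert i s hi ih =>
    obtain ⟨h1, h2⟩ := ih (fun j hj => h j (Finset.mem_insert_of_mem hj))
      (fun j hj => h0 j (Finset.mem_insert_of_mem hj))
    rw [Finset.prod_insert hi]
    exact ⟨(h i (Finset.mem_insert_self _ _)).mul h1,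
      Kum.mul_ne_zero' (h i (Finset.mem_insert_self _ _)) h1 (h0 i (Finset.mem_insert_self _ _)) h2⟩

lemma TTf_ne_zero (hu : MDiff u) (h0 : u ≠ 0) : TTf k ℓ u ≠ 0 :=
  (prod_ne_zero_of_holo _ _ (fun x _ => hu.slash k (repT ℓ x))
    (fun x _ => slash_ne_zero h0 (repT ℓ x))).2

section character

variable {N : ℕ} [NeZero N]

omit [NeZero N] in
/-- `u` is a form with character `χ` -/
def HasChar (N : ℕ) (k : ℤ) (χ : Additive (Gamma0 N) →+ Additive ℂˣ) (u : ℍ → ℂ) : Prop :=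
  ∀ γ : Gamma0 N, u ∣[k] (γ : SL(2, ℤ)) = (((χ (Additive.ofMul γ)).toMul : ℂˣ) : ℂ) • u

lemma smul_slash_pos (c : ℂ) (f : ℍ → ℂ) {g : GL (Fin 2) ℝ}
    (hg : 0 < ((g : GL (Fin 2) ℝ) : Matrix (Fin 2) (Fin 2) ℝ).det) :
    (c • f) ∣[k] g = c • (f ∣[k] g) := by
  rw [ModularForm.smul_slash]
  have : UpperHalfPlane.σ g = .refl ℝ ℂ := by
    rw [UpperHalfPlane.σ, if_pos]
    exact hg
  rw [this]; rfl

theorem hasChar_TTf (hℓ : ℓ.Prime) (hℓN : ¬ ℓ ∣ N) {χ : Additive (Gamma0 N) →+ Additive ℂˣ}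
    (hu : HasChar N k χ u) :
    HasChar N (((ℓ + 1 : ℕ) : ℤ) * k) (opT N hℓ hℓN (Additive ℂˣ) χ) (TTf k ℓ u) := by
  intro γ
  have hrel := (isHeckeFam_T (N := N) hℓ hℓN).rel_elt γ
  set σ := (isHeckeFam_T (N := N) hℓ hℓN).perm γ
  set g := (isHeckeFam_T (N := N) hℓ hℓN).elt γ
  have h1 := prod_slash_SL (Finset.univ : Finset (Option (ZMod ℓ))) (fun x => u ∣[k] repT ℓ x) k
    (γ : SL(2, ℤ))
  rw [Finset.card_univ, Fintype.card_option, ZMod.card] at h1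
  rw [TTf, h1]
  have h2 : ∀ x, (u ∣[k] repT ℓ x) ∣[k] (γ : SL(2, ℤ)) =
      (((χ (Additive.ofMul (g x))).toMul : ℂˣ) : ℂ) • (u ∣[k] repT ℓ (σ x)) := by
    intro x
    change (u ∣[k] repT ℓ x) ∣[k] (mapGL ℝ (γ : SL(2, ℤ))) = _
    rw [← SlashAction.slash_mul, hrel x, SlashAction.slash_mul]
    have h3 : u ∣[k] (mapGL ℝ (g x : SL(2, ℤ))) =
      (((χ (Additive.ofMul (g x))).toMul : ℂˣ) : ℂ) • u := hu (g x)
    rw [h3, smul_slash_pos _ _ ((isHeckeFam_T (N := N) hℓ hℓN).det_pos (σ x))]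
  have h4 : (opT N hℓ hℓN (Additive ℂˣ) χ) (Additive.ofMul γ) =
      ∑ x, χ (Additive.ofMul (g x)) := rfl
  rw [h4, toMul_sum, Units.coe_prod, Finset.prod_congr rfl (fun x _ => h2 x)]
  funext τ
  simp only [Finset.prod_apply, Pi.smul_apply, smul_eq_mul, Finset.prod_mul_distrib]
  congr 1
  exact Equiv.prod_comp σ (fun x => (u ∣[k] repT ℓ x) τ)

/-- the invariant case -/
theorem isMF_TTf (hℓ : ℓ.Prime) (hℓN : ¬ ℓ ∣ N) (hu : IsMF (G0 N) k u) :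
    IsMF (G0 N) (((ℓ + 1 : ℕ) : ℤ) * k) (TTf k ℓ u) := by
  refine ⟨HB_TTf ℓ hu.toHB, fun γ hγ => ?_⟩
  have h1 : HasChar N k 0 u := fun δ => by
    rw [hu.slash _ δ.2, AddMonoidHom.zero_apply, toMul_zero, Units.val_one, one_smul]
  have h2 := hasChar_TTf ℓ hℓ hℓN h1 ⟨γ, hγ⟩
  rw [map_zero, AddMonoidHom.zero_apply, toMul_zero, Units.val_one, one_smul] at h2
  exact h2

end character

end

end Fermat.Agent.HeckeProd
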